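/-
Row 37 (RIBET), WALL-q: KUM-RED core (helper386).

Under the reduction inputs `ReductionInputsModL A N` (place reduction `ρ` with property (R) +
principal divisors generated by integral ones), a function `g ≠ 0` of level `N` with divisor `E`
has an `∞`-reduction `s ∈ F_k(N)ˣ` with `div s = ρ_* E`  (`exists_isRedInf_div`).

No torsion count, no S27/S37 in the closure.
-/
import Fermat.Agent.Lib.RR.H864.FF1Modular
import Fermat.Agent.Lib.RR.H383.FF1OfFinite
import Fermat.Agent.Ribet.H884.SlopeSpec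
import Fermat.Prelude.Def_ModularCurve_ReductionModL

set_option autoImplicit false
set_option synthInstance.maxHeartbeats 400000
set_option maxHeartbeats 1000000
set_option linter.style.haveILetI false
set_option linter.unusedSectionVars false

noncomputable section

namespace Fermat.Agent.Ribet.H386

open AlgebraicCurve ModularCurve IsLocalRing HahnSeries
open Fermat.Agent.S24 Fermat.Agent.A2.H708 Fermat.Agent.Ribet.H884

/-! ## Constants -/

/-- A function without zeros and poles is constant (`FF1`, algebraically closed constants). -/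
theorem exists_algebraMap_eq_of_ord_eq_zero (K F : Type*) [Field K] [Field F] [Algebra K F]
    [IsAlgClosed K] [Fermat.Agent.Lib.RR.FF1 K F] {f : F}
    (hf : ∀ v : Place K F, v.ord f = 0) : ∃ c : K, algebraMap K F c = f := by
  obtain ⟨x, hx, hfin⟩ := Fermat.Agent.Lib.RR.FF1.exists_finite (K := K) (F := F)
  haveI := hfin
  exact Fermat.Agent.Lib.RR.H383.eq_algebraMap_of_forall_ord_eq_zero hx hf

/-- Constants have order zero. -/
theorem ord_algebraMap_h386 {K F : Type*} [Field K] [Field F] [Algebra K F] (Q : Place K F)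
    (c : K) : Q.ord (algebraMap K F c) = 0 := by
  rcases eq_or_ne c 0 with rfl | hc
  · rw [map_zero, Place.ord_zero]
  · have hcc : algebraMap K F c ≠ 0 := by simpa using hc
    have hmem : algebraMap K F c ∈ Q.toValuationSubring := Q.algebraMap_mem' _
    have hmem' : (algebraMap K F c)⁻¹ ∈ Q.toValuationSubring := by
      rw [← map_inv₀]
      exact Q.algebraMap_mem' _
    let u : (Q.toValuationSubring)ˣ :=
      ⟨⟨_, hmem⟩, ⟨_, hmem'⟩, Subtype.ext (mul_inv_cancel₀ hcc),
        Subtype.ext (inv_mul_cancel₀ hcc)⟩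
    exact Q.ord_coe_unit u

/-- Two nonzero functions with the same orders differ by a nonzero constant. -/
theorem exists_const_mul_of_ord_eq (K F : Type*) [Field K] [Field F] [Algebra K F]
    [IsAlgClosed K] [Fermat.Agent.Lib.RR.FF1 K F] {f g : F} (hf : f ≠ 0) (hg : g ≠ 0)
    (h : ∀ v : Place K F, v.ord f = v.ord g) :
    ∃ c : K, c ≠ 0 ∧ f = algebraMap K F c * g := by
  have h0 : ∀ v : Place K F, v.ord (f * g⁻¹) = 0 := fun v => by
    rw [v.ord_mul hf (inv_ne_zero hg), v.ord_inv, h v, add_neg_cancel]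
  obtain ⟨c, hc⟩ := exists_algebraMap_eq_of_ord_eq_zero K F h0
  refine ⟨c, ?_, ?_⟩
  · rintro rfl
    rw [map_zero] at hc
    exact mul_ne_zero hf (inv_ne_zero hg) hc.symm
  · rw [hc, mul_assoc, inv_mul_cancel₀ hg, mul_one]

/-- The constant `c` of a function field inside `k((t))`. -/
theorem coe_algebraMap_fullC (k : Type) [Field k] (N : ℕ) (c : k) :
    ((algebraMap k (modularFunctionFieldFullC k N) c : modularFunctionFieldFullC k N) :
      LaurentSeries k) = HahnSeries.C c := by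
  have h0 : ((algebraMap k (modularFunctionFieldFullC k N) c :
      modularFunctionFieldFullC k N) : LaurentSeries k) =
      algebraMap k (LaurentSeries k) c := rfl
  have h1 : algebraMap k (PowerSeries k) c = PowerSeries.C c := by simp
  rw [h0, HahnSeries.algebraMap_apply', h1, HahnSeries.ofPowerSeries_C]

/-! ## Classes of divisors -/

section Classes

variable {K F : Type*} [Field K] [Field F] [Algebra K F]

/-- `m • [D] = 0` iff `m • D` is principal. -/
theorem nsmul_mk_eq_zero_iff (m : ℕ) (D : Divisor.degZero (K := K) (F := F)) :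
    m • (Pic0.mk D : Pic0 K F) = 0 ↔ Divisor.IsPrincipal (m • (D : Divisor K F)) := by
  have e : m • (Pic0.mk D : Pic0 K F) = Pic0.mk (m • D) := rfl
  rw [e]
  unfold Pic0.mk
  rw [QuotientAddGroup.eq_zero_iff, AddSubgroup.mem_addSubgroupOf]
  rfl

/-- `[D] = 0` iff `D` is principal. -/
theorem mk_eq_zero_iff (D : Divisor.degZero (K := K) (F := F)) :
    (Pic0.mk D : Pic0 K F) = 0 ↔ Divisor.IsPrincipal (D : Divisor K F) := by
  unfold Pic0.mk
  rw [QuotientAddGroup.eq_zero_iff, AddSubgroup.mem_addSubgroupOf]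
  rfl

/-- `[D] = [E]` iff `D - E` is principal. -/
theorem mk_eq_mk_iff (D E : Divisor.degZero (K := K) (F := F)) :
    (Pic0.mk D : Pic0 K F) = Pic0.mk E ↔
      Divisor.IsPrincipal ((D : Divisor K F) - (E : Divisor K F)) := by
  unfold Pic0.mk
  rw [QuotientAddGroup.eq_iff_sub_mem, AddSubgroup.mem_addSubgroupOf]
  rfl

/-- The push-forward of divisors commutes with multiples. -/
theorem mapDomain_nsmul_h386 {α β : Type*} (ρ : α → β) (m : ℕ) (D : α →₀ ℤ) :
    Finsupp.mapDomain ρ (m • D) = m • Finsupp.mapDomain ρ D := by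
  rw [← Finsupp.mapDomain.addMonoidHom_apply, map_nsmul, Finsupp.mapDomain.addMonoidHom_apply]

end Classes

/-! ## Integral normal forms adapted to the place reduction -/

section NormalForm

variable (N : ℕ) [NeZero N] (A : ValuationSubring Kbar)

/-- `D = div (U₁ / U₂)` for integral series `U₁, U₂` of the function field with nonzero
reductions in `F_k`, and `ρ_* D = div (Ū₁ / Ū₂)`. -/
def IntPair (ρ : Place Kbar (modularFunctionFieldBar N) →
      Place (kA A) (modularFunctionFieldFullC (kA A) N))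
    (D : Divisor Kbar (modularFunctionFieldBar N)) : Prop :=
  ∃ (U₁ U₂ : LaurentSeries A) (h₁ : incl A U₁ ∈ modularFunctionFieldBar N)
    (h₂ : incl A U₂ ∈ modularFunctionFieldBar N)
    (k₁ : red A U₁ ∈ modularFunctionFieldFullC (kA A) N)
    (k₂ : red A U₂ ∈ modularFunctionFieldFullC (kA A) N),
    red A U₁ ≠ 0 ∧ red A U₂ ≠ 0 ∧
    (∀ P : Place Kbar (modularFunctionFieldBar N),
      D P = P.ord (⟨incl A U₁, h₁⟩ : modularFunctionFieldBar N) -
        P.ord (⟨incl A U₂, h₂⟩ : modularFunctionFieldBar N)) ∧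
    (∀ Q : Place (kA A) (modularFunctionFieldFullC (kA A) N),
      Finsupp.mapDomain ρ D Q =
        Q.ord (⟨red A U₁, k₁⟩ : modularFunctionFieldFullC (kA A) N) -
          Q.ord (⟨red A U₂, k₂⟩ : modularFunctionFieldFullC (kA A) N))

variable {N A}

theorem incl_ne_zero_of_red_ne_zero {U : LaurentSeries A} (h : red A U ≠ 0) :
    incl A U ≠ 0 := by
  intro h0
  apply h
  have : U = 0 := incl_injective A (by rw [h0, map_zero])
  rw [this, map_zero]

theorem ord_mk_mul {K : Type*} [Field K] {E : Type*} [Field E] [Algebra K E]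
    (F : IntermediateField K E) (Q : Place K F) {a b : E} (ha : a ∈ F) (hb : b ∈ F)
    (hab : a * b ∈ F) (ha0 : a ≠ 0) (hb0 : b ≠ 0) :
    Q.ord (⟨a * b, hab⟩ : F) = Q.ord (⟨a, ha⟩ : F) + Q.ord (⟨b, hb⟩ : F) := by
  have e : (⟨a * b, hab⟩ : F) = (⟨a, ha⟩ : F) * (⟨b, hb⟩ : F) := Subtype.ext rfl
  rw [e]
  exact Q.ord_mul (fun h => ha0 (congrArg Subtype.val h)) (fun h => hb0 (congrArg Subtype.val h))

theorem ord_mk_one {K : Type*} [Field K] {E : Type*} [Field E] [Algebra K E]
    (F : IntermediateField K E) (Q : Place K F) {a : E} (ha : a ∈ F) (h1 : a = 1) :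
    Q.ord (⟨a, ha⟩ : F) = 0 := by
  have e : (⟨a, ha⟩ : F) = 1 := Subtype.ext h1
  rw [e, Place.ord_one]

theorem intPair_of_mem_closure
    {ρ : Place Kbar (modularFunctionFieldBar N) →
      Place (kA A) (modularFunctionFieldFullC (kA A) N)}
    (hρ : IsPlaceReductionModL A N ρ) {D : Divisor Kbar (modularFunctionFieldBar N)}
    (hD : D ∈ AddSubgroup.closure (integralPrincipalDivisors A (IsLocalRing.residue A) N)) :
    IntPair N A ρ D := by
  have hone₁ : incl A (1 : LaurentSeries A) ∈ modularFunctionFieldBar N := by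
    rw [map_one]; exact one_mem _
  have hone₂ : red A (1 : LaurentSeries A) ∈ modularFunctionFieldFullC (kA A) N := by
    rw [map_one]; exact one_mem _
  have hred1 : red A (1 : LaurentSeries A) ≠ 0 := by
    rw [map_one]; exact one_ne_zero
  induction hD using AddSubgroup.closure_induction with
  | mem E hE =>
    obtain ⟨y, hy, hyk, hne, hDy⟩ := hE
    refine ⟨y, 1, hy, hone₁, hyk, hone₂, hne, hred1, fun P => ?_, fun Q => ?_⟩
    · rw [hDy P, ord_mk_one _ P hone₁ (map_one _), sub_zero]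
    · rw [hρ.2 y hy hyk hne E hDy Q, ord_mk_one _ Q hone₂ (map_one _), sub_zero]
  | zero =>
    refine ⟨1, 1, hone₁, hone₁, hone₂, hone₂, hred1, hred1, fun P => ?_, fun Q => ?_⟩
    · rw [sub_self]; rfl
    · rw [sub_self, Finsupp.mapDomain_zero]; rfl
  | add E E' _ _ hE hE' =>
    obtain ⟨U₁, U₂, h₁, h₂, k₁, k₂, n₁, n₂, hP, hQ⟩ := hE
    obtain ⟨U₁', U₂', h₁', h₂', k₁', k₂', n₁', n₂', hP', hQ'⟩ := hE'
    have m₁ : incl A (U₁ * U₁') ∈ modularFunctionFieldBar N := by
      rw [map_mul]; exact mul_mem h₁ h₁'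
    have m₂ : incl A (U₂ * U₂') ∈ modularFunctionFieldBar N := by
      rw [map_mul]; exact mul_mem h₂ h₂'
    have l₁ : red A (U₁ * U₁') ∈ modularFunctionFieldFullC (kA A) N := by
      rw [map_mul]; exact mul_mem k₁ k₁'
    have l₂ : red A (U₂ * U₂') ∈ modularFunctionFieldFullC (kA A) N := by
      rw [map_mul]; exact mul_mem k₂ k₂'
    refine ⟨U₁ * U₁', U₂ * U₂', m₁, m₂, l₁, l₂, ?_, ?_, fun P => ?_, fun Q => ?_⟩
    · rw [map_mul]; exact mul_ne_zero n₁ n₁'
    · rw [map_mul]; exact mul_ne_zero n₂ n₂'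
    · have e₁ : P.ord (⟨incl A (U₁ * U₁'), m₁⟩ : modularFunctionFieldBar N) =
          P.ord (⟨incl A U₁, h₁⟩ : modularFunctionFieldBar N) +
            P.ord (⟨incl A U₁', h₁'⟩ : modularFunctionFieldBar N) := by
        have hm : incl A U₁ * incl A U₁' ∈ modularFunctionFieldBar N := mul_mem h₁ h₁'
        have e : (⟨incl A (U₁ * U₁'), m₁⟩ : modularFunctionFieldBar N) =
            ⟨incl A U₁ * incl A U₁', hm⟩ := Subtype.ext (map_mul _ _ _)
        rw [e]
        exact ord_mk_mul _ P h₁ h₁' hm (incl_ne_zero_of_red_ne_zero n₁)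
          (incl_ne_zero_of_red_ne_zero n₁')
      have e₂ : P.ord (⟨incl A (U₂ * U₂'), m₂⟩ : modularFunctionFieldBar N) =
          P.ord (⟨incl A U₂, h₂⟩ : modularFunctionFieldBar N) +
            P.ord (⟨incl A U₂', h₂'⟩ : modularFunctionFieldBar N) := by
        have hm : incl A U₂ * incl A U₂' ∈ modularFunctionFieldBar N := mul_mem h₂ h₂'
        have e : (⟨incl A (U₂ * U₂'), m₂⟩ : modularFunctionFieldBar N) =
            ⟨incl A U₂ * incl A U₂', hm⟩ := Subtype.ext (map_mul _ _ _)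
        rw [e]
        exact ord_mk_mul _ P h₂ h₂' hm (incl_ne_zero_of_red_ne_zero n₂)
          (incl_ne_zero_of_red_ne_zero n₂')
      rw [Finsupp.add_apply, hP P, hP' P, e₁, e₂]
      ring
    · have e₁ : Q.ord (⟨red A (U₁ * U₁'), l₁⟩ : modularFunctionFieldFullC (kA A) N) =
          Q.ord (⟨red A U₁, k₁⟩ : modularFunctionFieldFullC (kA A) N) +
            Q.ord (⟨red A U₁', k₁'⟩ : modularFunctionFieldFullC (kA A) N) := by
        have hm : red A U₁ * red A U₁' ∈ modularFunctionFieldFullC (kA A) N := mul_mem k₁ k₁'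
        have e : (⟨red A (U₁ * U₁'), l₁⟩ : modularFunctionFieldFullC (kA A) N) =
            ⟨red A U₁ * red A U₁', hm⟩ := Subtype.ext (map_mul _ _ _)
        rw [e]
        exact ord_mk_mul _ Q k₁ k₁' hm n₁ n₁'
      have e₂ : Q.ord (⟨red A (U₂ * U₂'), l₂⟩ : modularFunctionFieldFullC (kA A) N) =
          Q.ord (⟨red A U₂, k₂⟩ : modularFunctionFieldFullC (kA A) N) +
            Q.ord (⟨red A U₂', k₂'⟩ : modularFunctionFieldFullC (kA A) N) := by
        have hm : red A U₂ * red A U₂' ∈ modularFunctionFieldFullC (kA A) N := mul_mem k₂ k₂'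
        have e : (⟨red A (U₂ * U₂'), l₂⟩ : modularFunctionFieldFullC (kA A) N) =
            ⟨red A U₂ * red A U₂', hm⟩ := Subtype.ext (map_mul _ _ _)
        rw [e]
        exact ord_mk_mul _ Q k₂ k₂' hm n₂ n₂'
      rw [Finsupp.mapDomain_add, Finsupp.add_apply, hQ Q, hQ' Q, e₁, e₂]
      ring
  | neg E _ hE =>
    obtain ⟨U₁, U₂, h₁, h₂, k₁, k₂, n₁, n₂, hP, hQ⟩ := hE
    refine ⟨U₂, U₁, h₂, h₁, k₂, k₁, n₂, n₁, fun P => ?_, fun Q => ?_⟩
    · rw [Finsupp.neg_apply, hP P, neg_sub]
    · have : Finsupp.mapDomain ρ (-E) = -Finsupp.mapDomain ρ E := by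
        rw [← Finsupp.mapDomain.addMonoidHom_apply, map_neg, Finsupp.mapDomain.addMonoidHom_apply]
      rw [this, Finsupp.neg_apply, hQ Q, neg_sub]

end NormalForm

/-! ## The reduction of a Kummer generator -/

section KummerRed

variable (N : ℕ) [NeZero N] (ℓ : ℕ) (A : ValuationSubring Kbar)

/-- **KummerRed**: a function `g ≠ 0` with `div g = E` has an `∞`-reduction `s ∈ F_k(N)ˣ` with
`div s = ρ_* E`, where `ρ` is the place reduction. -/
theorem exists_isRedInf_div (h : ReductionInputsModL A N) (g : FF N) (hg : g ≠ 0)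
    (E : Divisor Kbar (modularFunctionFieldBar N))
    (hE : ∀ v : Place Kbar (modularFunctionFieldBar N), E v = v.ord g) :
    ∃ s : modularFunctionFieldFullC (kA A) N, s ≠ 0 ∧
      IsRedInf N A g (s : LaurentSeries (kA A)) ∧
      ∀ Q : Place (kA A) (modularFunctionFieldFullC (kA A) N),
        Finsupp.mapDomain (placeReductionModL h) E Q = Q.ord s := by
  haveI : Fermat.Agent.Lib.RR.FF1 Kbar (modularFunctionFieldBar N) :=
    Fermat.Agent.Lib.RR.H864.ff1_modularFunctionFieldBar N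
  have hρ := isPlaceReductionModL_placeReductionModL h
  have hgen : PrincipalGeneratedByIntegral A (IsLocalRing.residue A) N := h.choose_spec.2
  have hprin : E ∈ Divisor.principal (K := Kbar) (F := modularFunctionFieldBar N) :=
    ⟨g, hg, hE⟩
  obtain ⟨U₁, U₂, h₁, h₂, k₁, k₂, n₁, n₂, hP, hQ⟩ := intPair_of_mem_closure hρ (hgen hprin)
  have i₁ : incl A U₁ ≠ 0 := incl_ne_zero_of_red_ne_zero n₁
  have i₂ : incl A U₂ ≠ 0 := incl_ne_zero_of_red_ne_zero n₂
  have i₁' : (⟨incl A U₁, h₁⟩ : modularFunctionFieldBar N) ≠ 0 :=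
    fun e => i₁ (congrArg Subtype.val e)
  have i₂' : (⟨incl A U₂, h₂⟩ : modularFunctionFieldBar N) ≠ 0 :=
    fun e => i₂ (congrArg Subtype.val e)
  -- `g * U₂` and `U₁` have the same divisor
  obtain ⟨c, hc, hgc⟩ := exists_const_mul_of_ord_eq Kbar (modularFunctionFieldBar N)
    (f := g * ⟨incl A U₂, h₂⟩) (g := ⟨incl A U₁, h₁⟩) (mul_ne_zero hg i₂') i₁'
    (fun v => by
      rw [v.ord_mul hg i₂', ← hE v, hP v]
      ring)
  have n₁' : (⟨red A U₁, k₁⟩ : modularFunctionFieldFullC (kA A) N) ≠ 0 :=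
    fun e => n₁ (congrArg Subtype.val e)
  have n₂' : (⟨red A U₂, k₂⟩ : modularFunctionFieldFullC (kA A) N) ≠ 0 :=
    fun e => n₂ (congrArg Subtype.val e)
  refine ⟨⟨red A U₁, k₁⟩ * (⟨red A U₂, k₂⟩)⁻¹, mul_ne_zero n₁' (inv_ne_zero n₂'), ?_,
    fun Q => ?_⟩
  · refine ⟨c, U₁, U₂, hc, n₁, n₂, ?_, ?_⟩
    · have := congrArg (Subtype.val : modularFunctionFieldBar N → LaurentSeries Kbar) hgc
      exact this
    · show (red A U₁ * (red A U₂)⁻¹) * red A U₂ = red A U₁
      rw [mul_assoc, inv_mul_cancel₀ n₂, mul_one]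
  · rw [hQ Q, Q.ord_mul n₁' (inv_ne_zero n₂'), Q.ord_inv]
    ring

end KummerRed

end Fermat.Agent.Ribet.H386

end
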