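/-
Row 37 (RIBET), WALL-q / RED-MAP inputs in the vocabulary of Kummer generators (helper386):

* `exists_kummer_lift` (**GR-SURJ(m), Kummer form**): every `r ∈ F_k(N)ˣ` all of whose orders are
  divisible by `m` (`PDivSeries m N r`, `ℓ ∤ m`) is, up to a constant and an `m`-th power of
  `F_k(N)ˣ`, the `∞`-reduction of a Kummer generator `g` of a class `z ∈ J₀(N)[m]`;
* `eq_zero_of_kummer_red_pow` (**GR-INJ(m), Kummer form**): a class `z` with a Kummer generator
  whose `∞`-reduction is a constant times an `m`-th power of `F_k(N)ˣ` is zero.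

Both at level `N`, `ℓ ∤ N`, `A` over `ℓ`, from the reduction inputs `ReductionInputsModL A N`
(and, for GR-SURJ, the equality of genera); `_good` versions at the good levels of row S37.
-/
import Fermat.Agent.Ribet.H937.GRSurj
import Fermat.Agent.Ribet.H386.KumRedCore
import Fermat.Agent.Ribet.H997.RedBasic

set_option autoImplicit false
set_option synthInstance.maxHeartbeats 400000
set_option maxHeartbeats 1000000
set_option linter.style.haveILetI false
set_option linter.unusedSectionVars false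

noncomputable section

namespace Fermat.Agent.Ribet.H386

open AlgebraicCurve ModularCurve IsLocalRing HahnSeries
open Fermat.Agent.S24 Fermat.Agent.A2.H708 Fermat.Agent.Ribet.H884

/-! ## GR-SURJ and GR-INJ in Kummer form -/

section Main

variable (N : ℕ) [NeZero N] (ℓ : ℕ) (A : ValuationSubring Kbar)

/-- Division of a divisor all of whose coefficients are divisible by `m`. -/
theorem exists_divisor_div {K F : Type*} [Field K] [Field F] [Algebra K F] (m : ℕ)
    (hm : m ≠ 0) (D : Divisor K F) (hdeg : Divisor.degree D = 0)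
    (hdiv : ∀ v : Place K F, (m : ℤ) ∣ D v) :
    ∃ E : Divisor K F, Divisor.degree E = 0 ∧ m • E = D := by
  classical
  refine ⟨D.mapRange (fun n => n / (m : ℤ)) (by simp), ?_, ?_⟩
  · have h2 : m • (D.mapRange (fun n => n / (m : ℤ)) (by simp) : Divisor K F) = D := by
      ext v
      rw [Finsupp.smul_apply, Finsupp.mapRange_apply, nsmul_eq_mul]
      exact Int.mul_ediv_cancel' (hdiv v)
    have h3 := congrArg Divisor.degree h2
    rw [map_nsmul, hdeg, nsmul_eq_mul] at h3
    rcases mul_eq_zero.mp h3 with h | h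
    · exact absurd (by exact_mod_cast h) hm
    · exact h
  · ext v
    rw [Finsupp.smul_apply, Finsupp.mapRange_apply, nsmul_eq_mul]
    exact Int.mul_ediv_cancel' (hdiv v)

/-- **GR-SURJ(m), Kummer form**, from the reduction inputs and the equality of genera. -/
theorem exists_kummer_lift_of_genus (hℓ : ℓ.Prime) (hℓN : ¬ ℓ ∣ N) (hA : A.LiesOverPrime ℓ)
    (h : ReductionInputsModL A N)
    (hgenus : genusFF Kbar (modularFunctionFieldBar N) =
      genusFF (kA A) (modularFunctionFieldFullC (kA A) N))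
    (m : ℕ) (hm : ¬ ℓ ∣ m) (r : LaurentSeries (kA A)) (hr : PDivSeries m N r) :
    ∃ (z : JZero N) (g : FF N) (s : LaurentSeries (kA A)) (c : kA A)
      (w : modularFunctionFieldFullC (kA A) N),
      IsKummerGen N m g z ∧ IsRedInf N A g s ∧ c ≠ 0 ∧ w ≠ 0 ∧
        r = HahnSeries.C c * s * (w : LaurentSeries (kA A)) ^ m := by
  haveI : IsAlgClosed (kA A) := Fermat.Agent.S18.H9.resAlgClosed _ A
  haveI : Fermat.Agent.Lib.RR.FF1 (kA A) (modularFunctionFieldFullC (kA A) N) :=
    Fermat.Agent.S18.H383.ff1_residue N ℓ hℓ hℓN A hA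
  have hm0 : m ≠ 0 := by
    rintro rfl
    exact hm (dvd_zero ℓ)
  obtain ⟨h₀, rfl, h₀ne, hdiv⟩ := hr
  -- the divisor of `h₀`, divided by `m`
  obtain ⟨D₀, hD₀, hD₀deg⟩ :=
    (Fermat.Agent.Lib.RR.FF1.hpd (K := kA A)
      (F := modularFunctionFieldFullC (kA A) N)).exists_divisor h₀ h₀ne
  obtain ⟨E, hEdeg, hE⟩ := exists_divisor_div m hm0 D₀ hD₀deg
    (fun v => by rw [hD₀ v]; exact hdiv v)
  -- its class, killed by `m`
  have hEmem : E ∈ Divisor.degZero (K := kA A) (F := modularFunctionFieldFullC (kA A) N) :=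
    Divisor.mem_degZero.mpr hEdeg
  have hmy : m • (Pic0.mk ⟨E, hEmem⟩ : JZeroC (kA A) N) = 0 := by
    refine (nsmul_mk_eq_zero_iff m _).mpr ⟨h₀, h₀ne, fun v => ?_⟩
    show (m • E) v = v.ord h₀
    rw [hE, hD₀ v]
  -- the lift
  haveI : Fact ℓ.Prime := ⟨hℓ⟩
  obtain ⟨z, hmz, hzy⟩ :=
    Fermat.Agent.Ribet.H937.grSurj_of_genus_eq N hℓN A hA h hgenus m hm _ hmy
  obtain ⟨D, rfl⟩ := Pic0.mk_surjective z
  -- a Kummer generator
  obtain ⟨g, hg, hgD⟩ := (nsmul_mk_eq_zero_iff m D).mp hmz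
  have hgD' : ∀ v : Place Kbar (modularFunctionFieldBar N),
      (m • (D : Divisor Kbar (modularFunctionFieldBar N))) v = v.ord g := fun v => hgD v
  have hK : IsKummerGen N m g (Pic0.mk D) := by
    refine ⟨hg, D, rfl, fun v => ?_⟩
    rw [← hgD' v, Finsupp.smul_apply, nsmul_eq_mul]
  -- its reduction
  obtain ⟨s, hs0, hsred, hsdiv⟩ := exists_isRedInf_div N A h g hg
    (m • (D : Divisor Kbar (modularFunctionFieldBar N))) hgD'
  -- the reduction of the class
  have hred := reductionModL_mk h D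
  rw [hzy] at hred
  obtain ⟨w, hw, hwD⟩ := (mk_eq_mk_iff _ _).mp hred
  have hwD' : ∀ Q : Place (kA A) (modularFunctionFieldFullC (kA A) N),
      E Q - Finsupp.mapDomain (placeReductionModL h)
        (D : Divisor Kbar (modularFunctionFieldBar N)) Q = Q.ord w := fun Q => by
    rw [← hwD Q]
    rfl
  -- compare divisors
  have hord : ∀ Q : Place (kA A) (modularFunctionFieldFullC (kA A) N),
      Q.ord h₀ = Q.ord (s * w ^ m) := fun Q => by
    have e1 := mapDomain_nsmul_h386 (placeReductionModL h) m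
      (D : Divisor Kbar (modularFunctionFieldBar N))
    have e2 := hsdiv Q
    rw [e1, Finsupp.smul_apply, nsmul_eq_mul] at e2
    have e3 : Q.ord (w ^ m) = (m : ℤ) * Q.ord w := by
      have := Q.ord_zpow w (m : ℤ)
      rwa [zpow_natCast] at this
    have e4 : (m : ℤ) * E Q = Q.ord h₀ := by
      rw [← hD₀ Q, ← hE, Finsupp.smul_apply, nsmul_eq_mul]
    rw [Q.ord_mul hs0 (pow_ne_zero m hw), e3, ← e2, ← hwD' Q, ← e4]
    ring
  obtain ⟨c, hc, hcs⟩ := exists_const_mul_of_ord_eq (kA A)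
    (modularFunctionFieldFullC (kA A) N) h₀ne (mul_ne_zero hs0 (pow_ne_zero m hw)) hord
  refine ⟨Pic0.mk D, g, (s : LaurentSeries (kA A)), c, w, hK, hsred, hc, hw, ?_⟩
  have := congrArg (Subtype.val : modularFunctionFieldFullC (kA A) N → LaurentSeries (kA A)) hcs
  rw [this]
  show ((algebraMap (kA A) (modularFunctionFieldFullC (kA A) N) c :
      modularFunctionFieldFullC (kA A) N) : LaurentSeries (kA A)) *
      ((s : LaurentSeries (kA A)) * (w : LaurentSeries (kA A)) ^ m) = _
  rw [coe_algebraMap_fullC, mul_assoc]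

/-- **GR-INJ(m), Kummer form**: a class with a Kummer generator whose `∞`-reduction is a constant
times an `m`-th power of `F_k(N)ˣ` is zero. -/
theorem eq_zero_of_kummer_red_pow (hℓ : ℓ.Prime) (hℓN : ¬ ℓ ∣ N) (hA : A.LiesOverPrime ℓ)
    (h : ReductionInputsModL A N) (m : ℕ) (hm : ¬ ℓ ∣ m) (z : JZero N) (g : FF N)
    (s : LaurentSeries (kA A)) (hK : IsKummerGen N m g z) (hs : IsRedInf N A g s)
    (c : kA A) (w : modularFunctionFieldFullC (kA A) N) (hw : w ≠ 0)
    (hsw : s = HahnSeries.C c * (w : LaurentSeries (kA A)) ^ m) : z = 0 := by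
  haveI : Fact ℓ.Prime := ⟨hℓ⟩
  haveI : IsAlgClosed (kA A) := Fermat.Agent.S18.H9.resAlgClosed _ A
  haveI : Fermat.Agent.Lib.RR.FF1 (kA A) (modularFunctionFieldFullC (kA A) N) :=
    Fermat.Agent.S18.H383.ff1_residue N ℓ hℓ hℓN A hA
  have hm0 : m ≠ 0 := by
    rintro rfl
    exact hm (dvd_zero ℓ)
  obtain ⟨hg, D, rfl, hgD⟩ := hK
  have hgD' : ∀ v : Place Kbar (modularFunctionFieldBar N),
      (m • (D : Divisor Kbar (modularFunctionFieldBar N))) v = v.ord g := fun v => by
    rw [Finsupp.smul_apply, nsmul_eq_mul, hgD v]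
  -- `m • z = 0`
  have hmz : m • (Pic0.mk D : JZero N) = 0 :=
    (nsmul_mk_eq_zero_iff m D).mpr ⟨g, hg, hgD'⟩
  -- the good reduction of `g`
  obtain ⟨s', hs'0, hs'red, hs'div⟩ := exists_isRedInf_div N A h g hg
    (m • (D : Divisor Kbar (modularFunctionFieldBar N))) hgD'
  obtain ⟨-, c', hc', hcs⟩ := Fermat.Agent.Ribet.H997.redUnique ℓ N hℓ A hA g s
    (s' : LaurentSeries (kA A)) hs hs'red
  have hs0 : s ≠ 0 := (Fermat.Agent.Ribet.H997.redUnique ℓ N hℓ A hA g s
    (s' : LaurentSeries (kA A)) hs hs'red).1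
  have hc0 : c ≠ 0 := by
    rintro rfl
    rw [map_zero, zero_mul] at hsw
    exact hs0 hsw
  -- `s' = c' c w ^ m` in `F_k`
  have hs'w : s' = algebraMap (kA A) (modularFunctionFieldFullC (kA A) N) (c' * c) * w ^ m := by
    apply Subtype.ext
    show (s' : LaurentSeries (kA A)) =
      ((algebraMap (kA A) (modularFunctionFieldFullC (kA A) N) (c' * c) :
        modularFunctionFieldFullC (kA A) N) : LaurentSeries (kA A)) *
        (w : LaurentSeries (kA A)) ^ m
    rw [coe_algebraMap_fullC, hcs, hsw, map_mul, mul_assoc]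
  -- the reduction of the class is principal
  have hred := reductionModL_mk h D
  have hzero : reductionModL A N (Pic0.mk D) = 0 := by
    rw [hred]
    refine (mk_eq_zero_iff _).mpr ⟨w, hw, fun Q => ?_⟩
    show Finsupp.mapDomain (placeReductionModL h)
      (D : Divisor Kbar (modularFunctionFieldBar N)) Q = Q.ord w
    have e1 := mapDomain_nsmul_h386 (placeReductionModL h) m
      (D : Divisor Kbar (modularFunctionFieldBar N))
    have e2 := hs'div Q
    rw [e1, Finsupp.smul_apply, nsmul_eq_mul] at e2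
    have e3 : Q.ord (w ^ m) = (m : ℤ) * Q.ord w := by
      have := Q.ord_zpow w (m : ℤ)
      rwa [zpow_natCast] at this
    have hcc : algebraMap (kA A) (modularFunctionFieldFullC (kA A) N) (c' * c) ≠ 0 := by
      simpa using mul_ne_zero hc' hc0
    have e5 : Q.ord (algebraMap (kA A) (modularFunctionFieldFullC (kA A) N) (c' * c)) = 0 :=
      ord_algebraMap_h386 Q _
    rw [hs'w, Q.ord_mul hcc (pow_ne_zero m hw), e5, zero_add, e3] at e2
    have hmZ : (m : ℤ) ≠ 0 := by exact_mod_cast hm0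
    exact mul_left_cancel₀ hmZ e2
  exact Fermat.Agent.S18.result N hℓN A hA h m hm _ hmz hzero

end Main

/-! ## Good levels -/

section GoodLevels

variable (M ℓ : ℕ) [NeZero M] (A : ValuationSubring Kbar)

/-- **GR-SURJ(m), Kummer form, at good levels.** -/
theorem exists_kummer_lift (hℓ : ℓ.Prime) (hℓM : ¬ ℓ ∣ M)
    (hg : Fermat.Agent.S37.Core.GoodLevel M ℓ) (hA : A.LiesOverPrime ℓ) (m : ℕ)
    (hm : ¬ ℓ ∣ m) (r : LaurentSeries (kA A)) (hr : PDivSeries m M r) :
    ∃ (z : JZero M) (g : FF M) (s : LaurentSeries (kA A)) (c : kA A)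
      (w : modularFunctionFieldFullC (kA A) M),
      IsKummerGen M m g z ∧ IsRedInf M A g s ∧ c ≠ 0 ∧ w ≠ 0 ∧
        r = HahnSeries.C c * s * (w : LaurentSeries (kA A)) ^ m := by
  haveI : Fact ℓ.Prime := ⟨hℓ⟩
  exact exists_kummer_lift_of_genus M ℓ A hℓ hℓM hA
    (Fermat.Agent.S37.Core.rimStatement M ℓ hℓ hℓM hg A hA)
    (Fermat.Agent.Ribet.H937.genusFF_eq_residue M hℓM hg A hA) m hm r hr

/-- **GR-INJ(m), Kummer form, at good levels.** -/
theorem eq_zero_of_kummer_red_pow_good (hℓ : ℓ.Prime) (hℓM : ¬ ℓ ∣ M)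
    (hg : Fermat.Agent.S37.Core.GoodLevel M ℓ) (hA : A.LiesOverPrime ℓ) (m : ℕ)
    (hm : ¬ ℓ ∣ m) (z : JZero M) (g : FF M) (s : LaurentSeries (kA A))
    (hK : IsKummerGen M m g z) (hs : IsRedInf M A g s) (c : kA A)
    (w : modularFunctionFieldFullC (kA A) M) (hw : w ≠ 0)
    (hsw : s = HahnSeries.C c * (w : LaurentSeries (kA A)) ^ m) : z = 0 :=
  eq_zero_of_kummer_red_pow M ℓ A hℓ hℓM hA
    (Fermat.Agent.S37.Core.rimStatement M ℓ hℓ hℓM hg A hA) m hm z g s hK hs c w hw hsw

end GoodLevels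

end Fermat.Agent.Ribet.H386

end
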